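import Mathlib.MeasureTheory.Constructions.Polish.StronglyMeasurable
import Mathlib.MeasureTheory.Integral.Bochner.Basic
import Mathlib.MeasureTheory.Integral.DominatedConvergence
import Mathlib.MeasureTheory.Integral.IntegrableOn
import Mathlib.Analysis.SpecificLimits.Basic

/-!
# The averages of an exchangeable sequence

All products of two different coordinates of an exchangeable law have one mean, so the averages of a
bounded function of them are a Cauchy sequence in square mean.  A fast subsequence converges almost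
everywhere to a function of the tail.
-/

set_option autoImplicit false

noncomputable section

namespace FA.DeFinetti

open MeasureTheory Filter Topology Finset
open scoped ENNReal

variable {S : Type*} [MeasurableSpace S]

/-- A law on sequences unchanged by permutations of finitely many coordinates. -/
def Exchangeable (μ : Measure (ℕ → S)) : Prop :=
  ∀ σ : Equiv.Perm ℕ, {i | σ i ≠ i}.Finite → μ.map (fun x i => x (σ i)) = μ

/-- Forget the first `k` coordinates. -/
def shiftN (k : ℕ) (x : ℕ → S) : ℕ → S := fun i => x (i + k)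

/-- The tail events. -/
@[instance_reducible]
def tailField : MeasurableSpace (ℕ → S) :=
  ⨅ k : ℕ, MeasurableSpace.comap (shiftN k) MeasurableSpace.pi

theorem measurable_shiftN (k : ℕ) : Measurable (shiftN k : (ℕ → S) → ℕ → S) :=
  measurable_pi_lambda _ fun i => measurable_pi_apply (i + k)

theorem tailField_le : (tailField : MeasurableSpace (ℕ → S)) ≤ MeasurableSpace.pi :=
  (iInf_le _ 0).trans (measurable_shiftN 0).comap_le

/-- The average of `f` over `n` coordinates from `k` on. -/
def avg (f : S → ℝ) (n k : ℕ) (x : ℕ → S) : ℝ := (∑ i ∈ range n, f (x (i + k))) / n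

theorem measurable_avg {f : S → ℝ} (hf : Measurable f) (n k : ℕ) : Measurable (avg f n k) :=
  (Finset.measurable_sum _ fun i _ => hf.comp (measurable_pi_apply (i + k))).div_const _

omit [MeasurableSpace S] in
theorem abs_avg_le {f : S → ℝ} {C : ℝ} (hC : ∀ s, |f s| ≤ C) (hC0 : 0 ≤ C) (n k : ℕ)
    (x : ℕ → S) : |avg f n k x| ≤ C := by
  rw [avg, abs_div, Nat.abs_cast]
  refine div_le_of_le_mul₀ n.cast_nonneg hC0 ((abs_sum_le_sum_abs _ _).trans ?_)
  refine (sum_le_card_nsmul _ _ C fun i _ => hC _).trans_eq ?_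
  rw [card_range, nsmul_eq_mul, mul_comm]

omit [MeasurableSpace S] in
/-- Forgetting `k` coordinates changes an average by at most `2 k C / n`. -/
theorem abs_avg_sub_le {f : S → ℝ} {C : ℝ} (hC : ∀ s, |f s| ≤ C) (n k : ℕ) (x : ℕ → S) :
    |avg f n 0 x - avg f n k x| ≤ 2 * k * C / n := by
  rw [avg, avg, ← sub_div, abs_div, Nat.abs_cast]
  refine div_le_div_of_nonneg_right ?_ n.cast_nonneg
  induction k with
  | zero => simp
  | succ k ih =>
    have e : ∑ i ∈ range n, f (x (i + k)) - ∑ i ∈ range n, f (x (i + (k + 1))) =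
        f (x k) - f (x (n + k)) := by
      have := sum_range_succ' (fun i => f (x (i + k))) n
      rw [sum_range_succ] at this
      simp only [Nat.zero_add, show ∀ i, i + 1 + k = i + (k + 1) by omega] at this
      linarith
    have h1 := abs_le.1 ih
    have h2 := abs_le.1 (hC (x k))
    have h3 := abs_le.1 (hC (x (n + k)))
    rw [abs_le]
    push_cast
    constructor <;> linarith

variable {μ : Measure (ℕ → S)} [IsProbabilityMeasure μ]

theorem integrable_of_bound {F : (ℕ → S) → ℝ} (hF : Measurable F) {C : ℝ} (h : ∀ x, |F x| ≤ C) :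
    Integrable F μ :=
  .of_bound hF.aestronglyMeasurable C (Eventually.of_forall h)

omit [IsProbabilityMeasure μ] in
theorem integral_perm (hμ : Exchangeable μ) {σ : Equiv.Perm ℕ} (hσ : {i | σ i ≠ i}.Finite)
    {F : (ℕ → S) → ℝ} (hF : Measurable F) : ∫ x, F (fun i => x (σ i)) ∂μ = ∫ x, F x ∂μ := by
  conv_rhs => rw [← hμ σ hσ]
  rw [integral_map (measurable_pi_lambda _ fun i => measurable_pi_apply (σ i)).aemeasurable
    hF.aestronglyMeasurable]

theorem finite_swap (a b : ℕ) : {i | Equiv.swap a b i ≠ i}.Finite :=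
  ((Set.finite_singleton b).insert a).subset fun i hi => by
    by_contra h
    simp only [Set.mem_insert_iff, Set.mem_singleton_iff, not_or] at h
    exact hi (Equiv.swap_apply_of_ne_of_ne h.1 h.2)

omit [IsProbabilityMeasure μ] in
theorem integral_pair (hμ : Exchangeable μ) {f : S → ℝ} (hf : Measurable f) {i j : ℕ}
    (hij : i ≠ j) :
    ∫ x, f (x i) * f (x j) ∂μ = ∫ x, f (x 0) * f (x 1) ∂μ := by
  set a := Equiv.swap 0 i 1
  set σ : Equiv.Perm ℕ := (Equiv.swap 0 i).trans (Equiv.swap a j)
  have hσ : {m | σ m ≠ m}.Finite :=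
    ((finite_swap 0 i).union (finite_swap a j)).subset fun m hm => by
      by_contra h
      simp only [Set.mem_union, Set.mem_ofPred_eq, not_or, not_not] at h
      exact hm (by simp [σ, h.1, h.2])
  have hai : a ≠ i := by
    rw [show i = Equiv.swap 0 i 0 from (Equiv.swap_apply_left 0 i).symm]
    exact (Equiv.injective _).ne one_ne_zero
  have h0 : σ 0 = i := by simp [σ, Equiv.swap_apply_of_ne_of_ne hai.symm hij]
  have h1 : σ 1 = j := by simp [σ, a]
  have := integral_perm hμ hσ (F := fun x => f (x 0) * f (x 1))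
    ((hf.comp (measurable_pi_apply 0)).mul (hf.comp (measurable_pi_apply 1)))
  simp only [h0, h1] at this
  exact this

omit [IsProbabilityMeasure μ] in
theorem integral_square (hμ : Exchangeable μ) {f : S → ℝ} (hf : Measurable f) (i : ℕ) :
    ∫ x, f (x i) * f (x i) ∂μ = ∫ x, f (x 0) * f (x 0) ∂μ := by
  have := integral_perm hμ (finite_swap 0 i) (F := fun x => f (x 0) * f (x 0))
    ((hf.comp (measurable_pi_apply 0)).mul (hf.comp (measurable_pi_apply 0)))
  simp only [Equiv.swap_apply_left] at this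
  exact this

variable {f : S → ℝ} {C : ℝ}

/-- The mean product of two different coordinates. -/
def pairMean (μ : Measure (ℕ → S)) (f : S → ℝ) : ℝ := ∫ x, f (x 0) * f (x 1) ∂μ

/-- The excess of the mean square over it. -/
def excess (μ : Measure (ℕ → S)) (f : S → ℝ) : ℝ := ∫ x, f (x 0) * f (x 0) ∂μ - pairMean μ f

theorem integral_avg_mul (hμ : Exchangeable μ) (hf : Measurable f) (hC : ∀ s, |f s| ≤ C) {n m : ℕ}
    (hn : 1 ≤ n) (hnm : n ≤ m) :
    ∫ x, avg f n 0 x * avg f m 0 x ∂μ = pairMean μ f + excess μ f / m := by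
  have hi : ∀ i j, Integrable (fun x => f (x i) * f (x j)) μ := fun i j =>
    integrable_of_bound ((hf.comp (measurable_pi_apply i)).mul (hf.comp (measurable_pi_apply j)))
      (C := C * C) fun x => by
        rw [abs_mul]
        exact mul_le_mul (hC _) (hC _) (abs_nonneg _) ((abs_nonneg _).trans (hC (x i)))
  have e : ∀ i j, ∫ x, f (x i) * f (x j) ∂μ =
      pairMean μ f + if i = j then excess μ f else 0 := fun i j => by
    split_ifs with h
    · subst h
      rw [integral_square hμ hf, excess, add_sub_cancel]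
    · rw [add_zero, integral_pair hμ hf h, pairMean]
  have e2 : ∀ x, avg f n 0 x * avg f m 0 x =
      (∑ i ∈ range n, ∑ j ∈ range m, f (x i) * f (x j)) / ((n : ℝ) * m) := fun x => by
    simp only [avg, Nat.add_zero]
    rw [div_mul_div_comm, sum_mul_sum]
  simp only [e2]
  rw [integral_div, integral_finsetSum _ fun i _ => integrable_finsetSum _ fun j _ => hi i j,
    Finset.sum_congr rfl fun i _ => integral_finsetSum _ fun j _ => hi i j]
  simp only [e, sum_add_distrib, sum_const, card_range, nsmul_eq_mul, sum_ite_eq]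
  rw [Finset.sum_congr rfl fun i (hi : i ∈ range n) =>
    if_pos (mem_range.2 ((mem_range.1 hi).trans_le hnm)), sum_const, card_range, nsmul_eq_mul]
  have : (0 : ℝ) < n := by exact_mod_cast hn
  have : (0 : ℝ) < m := by exact_mod_cast hn.trans hnm
  field_simp

theorem integral_sq_sub (hμ : Exchangeable μ) (hf : Measurable f) (hC : ∀ s, |f s| ≤ C)
    (hC0 : 0 ≤ C)    {n m : ℕ} (hn : 1 ≤ n) (hnm : n ≤ m) :
    ∫ x, (avg f n 0 x - avg f m 0 x) ^ 2 ∂μ = excess μ f / n - excess μ f / m := by
  have hi : ∀ a b, Integrable (fun x => avg f a 0 x * avg f b 0 x) μ := fun a b =>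
    integrable_of_bound ((measurable_avg hf a 0).mul (measurable_avg hf b 0)) (C := C * C)
      fun x => by
        rw [abs_mul]
        exact mul_le_mul (abs_avg_le hC hC0 _ _ _) (abs_avg_le hC hC0 _ _ _) (abs_nonneg _) hC0
  have e : ∀ x, (avg f n 0 x - avg f m 0 x) ^ 2 = avg f n 0 x * avg f n 0 x -
      2 * (avg f n 0 x * avg f m 0 x) + avg f m 0 x * avg f m 0 x := fun x => by ring
  simp only [e]
  rw [integral_add ?_ (hi m m), integral_sub (hi n n) ((hi n m).const_mul 2), integral_const_mul,
    integral_avg_mul hμ hf hC hn le_rfl, integral_avg_mul hμ hf hC hn hnm,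
    integral_avg_mul hμ hf hC (hn.trans hnm) le_rfl]
  · ring
  · exact (hi n n).sub ((hi n m).const_mul 2)

theorem excess_nonneg (hμ : Exchangeable μ) (hf : Measurable f) (hC : ∀ s, |f s| ≤ C)
    (hC0 : 0 ≤ C) : 0 ≤ excess μ f := by
  have h : 0 ≤ excess μ f / (1 : ℕ) - excess μ f / (2 : ℕ) :=
    integral_sq_sub hμ hf hC hC0 le_rfl one_le_two ▸ integral_nonneg fun x => sq_nonneg _
  push_cast at h
  linarith

theorem pairMean_ge (hμ : Exchangeable μ) (hf : Measurable f) (hC : ∀ s, |f s| ≤ C) (hC0 : 0 ≤ C) :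
    (∫ x, f (x 0) ∂μ) ^ 2 ≤ pairMean μ f := by
  set m := ∫ x, f (x 0) ∂μ
  have hi : ∀ i, Integrable (fun x => f (x i)) μ := fun i =>
    integrable_of_bound (hf.comp (measurable_pi_apply i)) fun x => hC _
  have hmean : ∀ n, 1 ≤ n → ∫ x, avg f n 0 x ∂μ = m := fun n hn => by
    simp only [avg, Nat.add_zero]
    rw [integral_div, integral_finsetSum _ fun i _ => hi i,
      Finset.sum_congr rfl fun i _ => (show ∫ x, f (x i) ∂μ = m by
        have := integral_perm hμ (finite_swap 0 i) (F := fun x => f (x 0))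
          (hf.comp (measurable_pi_apply 0))
        simpa only [Equiv.swap_apply_left] using this),
      sum_const, card_range, nsmul_eq_mul, mul_div_cancel_left₀ _ (by positivity)]
  refine ge_of_tendsto (x := atTop) (f := fun n : ℕ => pairMean μ f + excess μ f / n) ?_ ?_
  · simpa using tendsto_const_nhds.add (tendsto_const_div_atTop_nhds_zero_nat (excess μ f))
  filter_upwards [eventually_ge_atTop 1] with n hn
  have hb := fun x => abs_avg_le hC hC0 n 0 x
  have ha := integrable_of_bound (μ := μ) (measurable_avg hf n 0) hb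
  have ha2 : Integrable (fun x => avg f n 0 x * avg f n 0 x) μ :=
    integrable_of_bound ((measurable_avg hf n 0).mul (measurable_avg hf n 0)) (C := C * C) fun x =>
      by rw [abs_mul]; exact mul_le_mul (hb x) (hb x) (abs_nonneg _) hC0
  have h0 : 0 ≤ ∫ x, (avg f n 0 x * avg f n 0 x - 2 * m * avg f n 0 x + m ^ 2) ∂μ :=
    integral_nonneg fun x => by
      show 0 ≤ avg f n 0 x * avg f n 0 x - 2 * m * avg f n 0 x + m ^ 2
      rw [show avg f n 0 x * avg f n 0 x - 2 * m * avg f n 0 x + m ^ 2 =
        (avg f n 0 x - m) ^ 2 by ring]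
      exact sq_nonneg _
  rw [integral_add ?_ (integrable_const _), integral_sub ha2 (ha.const_mul _), integral_const_mul,
    hmean n hn, integral_avg_mul hμ hf hC hn le_rfl, integral_const, probReal_univ, one_smul] at h0
  · linarith
  · exact ha2.sub (ha.const_mul _)

/-- The almost sure limit along a fast subsequence, cut off at `C`. -/
def limAvg (f : S → ℝ) (C : ℝ) (x : ℕ → S) : ℝ :=
  max (-C) (min C (limUnder atTop fun j => avg f (4 ^ j) 0 x))

theorem tendsto_four_pow : Tendsto (fun j : ℕ => 4 ^ j) atTop atTop :=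
  tendsto_pow_atTop_atTop_of_one_lt (by norm_num)

omit [MeasurableSpace S] in
theorem abs_limAvg_le (hC0 : 0 ≤ C) (x : ℕ → S) : |limAvg f C x| ≤ C :=
  abs_le.2 ⟨le_max_left _ _, max_le (by linarith) (min_le_left _ _)⟩

omit [MeasurableSpace S] in
theorem limUnder_shift (hC : ∀ s, |f s| ≤ C) (k : ℕ) (x : ℕ → S) :
    (limUnder atTop fun j => avg f (4 ^ j) 0 x) =
      limUnder atTop fun j => avg f (4 ^ j) 0 (shiftN k x) := by
  have hd : Tendsto (fun j => avg f (4 ^ j) 0 x - avg f (4 ^ j) k x) atTop (𝓝 0) :=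
    squeeze_zero_norm (fun j => abs_avg_sub_le hC _ _ x)
      ((tendsto_const_div_atTop_nhds_zero_nat (2 * (k : ℝ) * C)).comp tendsto_four_pow)
  have e : (fun j => avg f (4 ^ j) 0 (shiftN k x)) = fun j => avg f (4 ^ j) k x := by
    funext j
    simp [avg, shiftN]
  have h : ∀ a : ℝ, Tendsto (fun j => avg f (4 ^ j) 0 x) atTop (𝓝 a) ↔
      Tendsto (fun j => avg f (4 ^ j) 0 (shiftN k x)) atTop (𝓝 a) := fun a => by
    rw [e]
    exact ⟨fun h => by simpa using h.sub hd, fun h => by simpa using h.add hd⟩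
  by_cases hex : ∃ a, Tendsto (fun j => avg f (4 ^ j) 0 x) atTop (𝓝 a)
  · obtain ⟨a, ha⟩ := hex
    rw [ha.limUnder_eq, ((h a).1 ha).limUnder_eq]
  · rw [limUnder_of_not_tendsto hex,
      limUnder_of_not_tendsto fun ⟨a, ha⟩ => hex ⟨a, (h a).2 ha⟩]

theorem measurable_limAvg (hf : Measurable f) (hC : ∀ s, |f s| ≤ C) :
    Measurable[tailField] (limAvg f C) := by
  have hlim : Measurable fun x => limUnder atTop fun j => avg f (4 ^ j) 0 x :=
    (StronglyMeasurable.limUnder fun j =>
      (measurable_avg hf (4 ^ j) 0).stronglyMeasurable).measurable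
  rw [measurable_iff_comap_le]
  refine le_iInf fun k => ?_
  rw [← measurable_iff_comap_le]
  refine (measurable_const.max (measurable_const.min ?_))
  rw [show (fun x => limUnder atTop fun j => avg f (4 ^ j) 0 x) =
    (fun y => limUnder atTop fun j => avg f (4 ^ j) 0 y) ∘ shiftN k from
    funext (limUnder_shift hC k)]
  exact hlim.comp (comap_measurable _)

/-- **Convergence in square mean.** -/
theorem integral_sq_limAvg_le (hμ : Exchangeable μ) (hf : Measurable f) (hC : ∀ s, |f s| ≤ C)
    (hC0 : 0 ≤ C) {n : ℕ} (hn : 1 ≤ n) :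
    ∫ x, (avg f n 0 x - limAvg f C x) ^ 2 ∂μ ≤ |excess μ f| / n := by
  set d : ℕ → (ℕ → S) → ℝ := fun j x => avg f (4 ^ (j + 1)) 0 x - avg f (4 ^ j) 0 x
  have hdm : ∀ j, Measurable (d j) := fun j =>
    (measurable_avg hf _ _).sub (measurable_avg hf _ _)
  have hda : ∀ j, Measurable fun x => |d j x| := fun j => continuous_abs.measurable.comp (hdm j)
  have hdb : ∀ j x, |d j x| ≤ C + C := fun j x =>
    (abs_sub _ _).trans (add_le_add (abs_avg_le hC hC0 _ _ _) (abs_avg_le hC hC0 _ _ _))
  have hone : ∀ j : ℕ, 1 ≤ 4 ^ j := fun j => Nat.one_le_pow _ _ (by norm_num)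
  have hL1 : ∀ j : ℕ, ∫ x, |d j x| ∂μ ≤ (|excess μ f| + 1) * (1 / 2 : ℝ) ^ j := by
    intro j
    have hsq : ∫ x, (d j x) ^ 2 ∂μ ≤ |excess μ f| / 4 ^ j := by
      have h := integral_sq_sub hμ hf hC hC0 (hone j)
        (Nat.pow_le_pow_right (by norm_num) (show j ≤ j + 1 by omega))
      simp only [d, sub_sq_comm (avg f (4 ^ (j + 1)) 0 _)]
      rw [h]
      push_cast
      have := div_nonneg (excess_nonneg hμ hf hC hC0) (pow_nonneg (zero_le_four (α := ℝ)) (j + 1))
      have := div_le_div_of_nonneg_right (le_abs_self (excess μ f))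
        (pow_nonneg (zero_le_four (α := ℝ)) j)
      linarith
    have hi2 : Integrable (fun x => (d j x) ^ 2) μ :=
      integrable_of_bound ((hdm j).pow_const 2) (C := (C + C) ^ 2) fun x => by
        rw [abs_pow]
        exact pow_le_pow_left₀ (abs_nonneg _) (hdb j x) 2
    have hpt : ∀ x, |d j x| ≤ (2 ^ j * (d j x) ^ 2 + (1 / 2 : ℝ) ^ j) / 2 := fun x => by
      have h1 : (2 : ℝ) ^ j * (1 / 2) ^ j = 1 := by rw [← mul_pow]; norm_num
      have h2 := mul_nonneg (pow_nonneg zero_le_two j) (sq_nonneg (|d j x| - (1 / 2 : ℝ) ^ j))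
      have h3 : (2 : ℝ) ^ j * (|d j x| - (1 / 2) ^ j) ^ 2 =
          2 ^ j * (d j x) ^ 2 - 2 * |d j x| * ((2 : ℝ) ^ j * (1 / 2) ^ j) +
            (2 : ℝ) ^ j * (1 / 2) ^ j * (1 / 2) ^ j := by
        rw [← sq_abs (d j x)]
        ring
      rw [h1] at h3
      linarith
    refine (integral_mono (integrable_of_bound (hda j) fun x => by
      simpa using hdb j x) (((hi2.const_mul _).add (integrable_const _)).div_const 2) hpt).trans ?_
    simp only [Pi.add_apply]
    rw [integral_div, integral_add (hi2.const_mul _) (integrable_const _), integral_const_mul,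
      integral_const, probReal_univ, one_smul]
    have h4 : (2 : ℝ) ^ j * (|excess μ f| / 4 ^ j) = |excess μ f| * (1 / 2) ^ j := by
      rw [show (4 : ℝ) ^ j = 2 ^ j * 2 ^ j by rw [← mul_pow]; norm_num, div_pow, one_pow]
      field_simp
    have h5 := mul_le_mul_of_nonneg_left hsq (pow_nonneg (zero_le_two (α := ℝ)) j)
    rw [h4] at h5
    have h6 : (0 : ℝ) ≤ (1 / 2) ^ j := by positivity
    have h7 := mul_nonneg (abs_nonneg (excess μ f)) h6
    linarith
  have hae : ∀ᵐ x ∂μ, Summable fun j => |d j x| := by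
    have hfin : ∫⁻ x, ∑' j, ENNReal.ofReal |d j x| ∂μ ≠ ∞ := by
      rw [lintegral_tsum fun j => (hda j).ennreal_ofReal.aemeasurable]
      refine ne_top_of_le_ne_top (ENNReal.ofReal_ne_top
        (r := ∑' j : ℕ, (|excess μ f| + 1) * (1 / 2 : ℝ) ^ j)) ?_
      rw [ENNReal.ofReal_tsum_of_nonneg (fun j => by positivity)
        (summable_geometric_two.mul_left _)]
      refine ENNReal.tsum_le_tsum fun j => ?_
      rw [← ofReal_integral_eq_lintegral_ofReal
        (integrable_of_bound (hda j) fun x => by simpa using hdb j x)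
        (Eventually.of_forall fun x => abs_nonneg _)]
      exact ENNReal.ofReal_le_ofReal (hL1 j)
    filter_upwards [ae_lt_top (Measurable.tsum fun j => (hda j).ennreal_ofReal) hfin]
      with x hx
    have := ENNReal.summable_toReal hx.ne
    simpa [abs_nonneg] using this
  have hlim : ∀ᵐ x ∂μ, Tendsto (fun j => avg f (4 ^ j) 0 x) atTop (𝓝 (limAvg f C x)) := by
    filter_upwards [hae] with x hx
    obtain ⟨l, hl⟩ := cauchySeq_tendsto_of_complete
      (cauchySeq_of_summable_dist (f := fun j => avg f (4 ^ j) 0 x) (by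
        simpa [Real.dist_eq, abs_sub_comm, d] using hx))
    have hlC : |l| ≤ C := le_of_tendsto' hl.abs fun j => abs_avg_le hC hC0 _ _ _
    rw [abs_le] at hlC
    rwa [limAvg, hl.limUnder_eq, min_eq_right hlC.2, max_eq_right hlC.1]
  have h := tendsto_integral_of_dominated_convergence (μ := μ)
    (F := fun j x => (avg f n 0 x - avg f (4 ^ j) 0 x) ^ 2)
    (f := fun x => (avg f n 0 x - limAvg f C x) ^ 2) (fun _ => (C + C) ^ 2)
    (fun j => ((measurable_avg hf _ _).sub (measurable_avg hf _ _)).pow_const 2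
      |>.aestronglyMeasurable) (integrable_const _)
    (fun j => Eventually.of_forall fun x => by
      rw [Real.norm_eq_abs, abs_pow]
      exact pow_le_pow_left₀ (abs_nonneg _) ((abs_sub _ _).trans
        (add_le_add (abs_avg_le hC hC0 _ _ _) (abs_avg_le hC hC0 _ _ _))) 2)
    (hlim.mono fun x hx => (tendsto_const_nhds.sub hx).pow 2)
  refine le_of_tendsto h ?_
  filter_upwards [tendsto_four_pow.eventually_ge_atTop n] with j hj
  rw [integral_sq_sub hμ hf hC hC0 hn hj]
  have h1 := div_le_div_of_nonneg_right (le_abs_self (excess μ f)) (Nat.cast_nonneg (α := ℝ) n)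
  have h0 : 0 ≤ excess μ f := excess_nonneg hμ hf hC hC0
  have := div_nonneg h0 ((4 ^ j : ℕ).cast_nonneg (α := ℝ))
  linarith

end FA.DeFinetti
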