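import Fermat.Agent.DeFinetti.Main
import Mathlib.MeasureTheory.Measure.ProbabilityMeasure

/-!
# Exchangeable laws as mixtures, and the binary case
-/

set_option autoImplicit false

noncomputable section

namespace FA.DeFinetti

open MeasureTheory ProbabilityTheory Filter Topology Finset

variable {S : Type*} [MeasurableSpace S] [StandardBorelSpace S] {μ : Measure (ℕ → S)}
  [IsProbabilityMeasure μ]

/-- **The averages tend to the conditional mean.** -/
theorem tendsto_avg (hμ : Exchangeable μ) {f : S → ℝ} (hf : Measurable f) {C : ℝ}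
    (hC : ∀ s, |f s| ≤ C) :
    Tendsto (fun n : ℕ => ∫ x, (avg f n 0 x - ∫ s, f s ∂tailLaw μ x) ^ 2 ∂μ) atTop (𝓝 0) := by
  have hC0 : 0 ≤ C := by
    obtain ⟨x⟩ := nonempty_of_isProbabilityMeasure μ
    exact (abs_nonneg _).trans (hC (x 0))
  refine tendsto_of_tendsto_of_tendsto_of_le_of_le' tendsto_const_nhds
    (tendsto_const_div_atTop_nhds_zero_nat |excess μ f|)
    (Eventually.of_forall fun n => integral_nonneg fun x => sq_nonneg _) ?_
  filter_upwards [eventually_ge_atTop 1] with n hn
  refine (integral_congr_ae ?_).trans_le (integral_sq_limAvg_le hμ hf hC hC0 hn)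
  filter_upwards [limAvg_ae_eq hμ hf hC hC0] with x hx
  rw [hx]

/-- **Exchangeable laws are the mixtures of powers.** -/
theorem exchangeable_iff :
    Exchangeable μ ↔ ∃ π : Measure (ProbabilityMeasure S), IsProbabilityMeasure π ∧
      μ = π.bind fun p => Measure.infinitePi fun _ : ℕ => (p : Measure S) := by
  have hc : Measurable fun p : ProbabilityMeasure S => (p : Measure S) := measurable_subtype_coe
  refine ⟨fun hμ => ?_, fun ⟨π, _, e⟩ => e ▸ exchangeable_bind π hc⟩
  have hκ : Measurable (tailLaw μ) := (measurable_tailLaw μ).mono tailField_le le_rfl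
  set T : (ℕ → S) → ProbabilityMeasure S := fun x => ⟨tailLaw μ x, inferInstance⟩
  have hT : Measurable T := hκ.subtype_mk
  refine ⟨μ.map T, Measure.isProbabilityMeasure_map hT.aemeasurable, ?_⟩
  have h := measurable_infinitePi (κ := fun p : ProbabilityMeasure S => (p : Measure S)) hc
  conv_lhs => rw [eq_mixture hμ]
  refine Measure.ext fun s hs => ?_
  have hm : Measurable fun p : ProbabilityMeasure S =>
      (Measure.infinitePi fun _ : ℕ => (p : Measure S)) s := (Measure.measurable_coe hs).comp h
  rw [mixture, Measure.bind_apply hs (measurable_infinitePi hκ).aemeasurable,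
    Measure.bind_apply hs h.aemeasurable, lintegral_map hm hT]
  rfl

/-- **De Finetti's theorem for binary sequences.** -/
theorem binary {ν : Measure (ℕ → Bool)} [IsProbabilityMeasure ν] (hν : Exchangeable ν) :
    ∃ ρ : Measure ℝ, IsProbabilityMeasure ρ ∧ ρ (Set.Icc 0 1)ᶜ = 0 ∧
      ∀ (n : ℕ) (w : ℕ → Bool), ν.real {x | ∀ i < n, x i = w i} =
        ∫ p, p ^ #{i ∈ range n | w i = true} * (1 - p) ^ #{i ∈ range n | ¬w i = true} ∂ρ := by
  have hκ : Measurable (tailLaw ν) := (measurable_tailLaw ν).mono tailField_le le_rfl
  set P : (ℕ → Bool) → ℝ := fun x => (tailLaw ν x).real {true}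
  have hP : Measurable P :=
    ((Measure.measurable_coe (measurableSet_singleton true)).comp hκ).ennreal_toReal
  refine ⟨ν.map P, Measure.isProbabilityMeasure_map hP.aemeasurable, ?_, fun n w => ?_⟩
  · rw [Measure.map_apply hP measurableSet_Icc.compl]
    convert measure_empty (μ := ν)
    ext x
    simp [P, measureReal_nonneg, measureReal_le_one]
  have key := integral_prod_eq hν (fun i => ({w i} : Set Bool).indicator fun _ => 1)
    (fun i => measurable_const.indicator (measurableSet_singleton _))
    (fun i s => by rw [Set.indicator_apply]; split_ifs <;> simp) n (fun _ => 1)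
    measurable_const (fun _ => by simp)
  simp only [one_mul, integral_indicator_const _ (measurableSet_singleton _), smul_eq_mul,
    mul_one] at key
  have hS : MeasurableSet {x : ℕ → Bool | ∀ i < n, x i = w i} := by
    simp only [Set.ofPred_forall]
    exact MeasurableSet.iInter fun i => MeasurableSet.iInter fun _ =>
      (measurable_pi_apply (X := fun _ => Bool) i) (measurableSet_singleton (w i))
  rw [integral_map hP.aemeasurable (Measurable.aestronglyMeasurable (by fun_prop))]
  calc ν.real {x | ∀ i < n, x i = w i}
      = ∫ x, ∏ i ∈ range n, ({w i} : Set Bool).indicator (fun _ => (1 : ℝ)) (x i) ∂ν := by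
        rw [show ν.real {x | ∀ i < n, x i = w i} =
          ∫ x, {x : ℕ → Bool | ∀ i < n, x i = w i}.indicator (fun _ => (1 : ℝ)) x ∂ν by
            rw [integral_indicator_const _ hS, smul_eq_mul, mul_one]]
        refine integral_congr_ae (Eventually.of_forall fun x => ?_)
        simp [Set.indicator, Finset.prod_ite_zero]
    _ = _ := key.trans (integral_congr_ae (Eventually.of_forall fun x => ?_))
  show ∏ i ∈ range n, (tailLaw ν x).real {w i} = _
  have hf : (tailLaw ν x).real {false} = 1 - P x := by
    rw [show ({false} : Set Bool) = ({true} : Set Bool)ᶜ by ext b; cases b <;> simp,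
      probReal_compl_eq_one_sub (measurableSet_singleton _)]
  rw [Finset.prod_congr rfl (g := fun i => if w i = true then P x else 1 - P x) fun i _ => by
    cases h : w i <;> simp [P, hf], Finset.prod_ite, prod_const, prod_const]

end FA.DeFinetti
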