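import Fermat.Agent.DeFinetti.Averages
import Mathlib.Probability.Kernel.Condexp
import Mathlib.Probability.ProductMeasure

/-!
# De Finetti's theorem

A tail function does not see a transposition of two early coordinates, so against it the factor
`f (x k)` may be exchanged for the limit of the averages, which is the conditional mean given the
tail.  Thus the law is the mixture of the powers of the conditional law of the first coordinate.
-/

set_option autoImplicit false

noncomputable section

namespace FA.DeFinetti

open MeasureTheory ProbabilityTheory Filter Topology Finset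
open scoped ENNReal

variable {S : Type*} [MeasurableSpace S]

theorem mem_iff_of_tail {s : Set (ℕ → S)} (hs : MeasurableSet[tailField] s) {x y : ℕ → S} {k : ℕ}
    (h : ∀ i, k ≤ i → x i = y i) : x ∈ s ↔ y ∈ s := by
  obtain ⟨t, -, rfl⟩ := (iInf_le (fun k : ℕ => MeasurableSpace.comap (shiftN k : (ℕ → S) → ℕ → S)
    MeasurableSpace.pi) k) s hs
  have e : shiftN k x = shiftN k y := funext fun i => h _ (Nat.le_add_left k i)
  simp [e]

/-- A tail function ignores finitely many coordinates. -/
theorem eq_of_tail {G : (ℕ → S) → ℝ} (hG : Measurable[tailField] G) {x y : ℕ → S} {k : ℕ}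
    (h : ∀ i, k ≤ i → x i = y i) : G x = G y :=
  (((mem_iff_of_tail (hG (measurableSet_singleton (G x))) h).1 rfl : G y = G x)).symm

variable {μ : Measure (ℕ → S)} [IsProbabilityMeasure μ] {f : S → ℝ} {C : ℝ}

/-- **A late coordinate may be replaced by the limit of the averages.** -/
theorem integral_mul_limAvg (hμ : Exchangeable μ) (hf : Measurable f) (hC : ∀ s, |f s| ≤ C)
    (hC0 : 0 ≤ C) (k : ℕ) {W : (ℕ → S) → ℝ} (hW : Measurable W) {B : ℝ} (hB : ∀ x, |W x| ≤ B)
    (hinv : ∀ j, k ≤ j → ∀ x, W (fun i => x (Equiv.swap k j i)) = W x) :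
    ∫ x, W x * f (x k) ∂μ = ∫ x, W x * limAvg f C x ∂μ := by
  have hfm : ∀ i, Measurable fun x : ℕ → S => f (x i) := fun i => hf.comp (measurable_pi_apply i)
  have hLm : Measurable (limAvg f C : (ℕ → S) → ℝ) :=
    (measurable_limAvg hf hC).mono tailField_le le_rfl
  have hB0 : 0 ≤ B :=
    (abs_nonneg _).trans (hB (Classical.choice (nonempty_of_isProbabilityMeasure μ)))
  have hint : ∀ (F : (ℕ → S) → ℝ), Measurable F → ∀ D, (∀ x, |F x| ≤ D) →
      Integrable (fun x => W x * F x) μ := fun F hF D hD =>
    integrable_of_bound (hW.mul hF) (C := B * D) fun x => by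
      rw [abs_mul]
      exact mul_le_mul (hB x) (hD x) (abs_nonneg _) hB0
  have he : ∀ j, k ≤ j → ∫ x, W x * f (x j) ∂μ = ∫ x, W x * f (x k) ∂μ := fun j hj => by
    have := integral_perm hμ (finite_swap k j) (F := fun x => W x * f (x k)) (hW.mul (hfm k))
    simpa only [hinv j hj, Equiv.swap_apply_left] using this
  set c := |excess μ f|
  have key : ∀ n : ℕ, 1 ≤ n → |∫ x, W x * f (x k) ∂μ - ∫ x, W x * limAvg f C x ∂μ| ≤
      B * (2 * k * C / n + (c + 1) / 2 * (√n)⁻¹) := by
    intro n hn
    have hn0 : (0 : ℝ) < n := by exact_mod_cast hn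
    have e : ∫ x, W x * f (x k) ∂μ = ∫ x, W x * avg f n k x ∂μ := by
      simp only [avg, ← mul_div_assoc, mul_sum]
      rw [integral_div, integral_finsetSum _ fun i _ => hint _ (hfm _) C fun x => hC _,
        Finset.sum_congr rfl fun i _ => he (i + k) (Nat.le_add_left k i), sum_const, card_range,
        nsmul_eq_mul, mul_div_cancel_left₀ _ hn0.ne']
    rw [e, ← integral_sub (hint _ (measurable_avg hf n k) C (abs_avg_le hC hC0 n k))
      (hint _ hLm C (abs_limAvg_le hC0))]
    set sn := √(n : ℝ)
    have hsn : 0 < sn := Real.sqrt_pos.2 hn0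
    have hsq : Integrable (fun x => (avg f n 0 x - limAvg f C x) ^ 2) μ :=
      integrable_of_bound (((measurable_avg hf n 0).sub hLm).pow_const 2) (C := (C + C) ^ 2)
        fun x => by
          rw [abs_pow]
          exact pow_le_pow_left₀ (abs_nonneg _) ((abs_sub _ _).trans
            (add_le_add (abs_avg_le hC hC0 n 0 x) (abs_limAvg_le hC0 x))) 2
    refine abs_integral_le_integral_abs.trans ((integral_mono_of_nonneg
      (Eventually.of_forall fun x => abs_nonneg _)
      (((integrable_const (2 * (k : ℝ) * C / n + sn⁻¹ / 2)).add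
        (hsq.const_mul (sn / 2))).const_mul B)
      (Eventually.of_forall fun x => ?_)).trans ?_)
    · show |W x * avg f n k x - W x * limAvg f C x| ≤
        B * (2 * k * C / n + sn⁻¹ / 2 + sn / 2 * (avg f n 0 x - limAvg f C x) ^ 2)
      rw [← mul_sub, abs_mul]
      refine mul_le_mul (hB x) ?_ (abs_nonneg _) hB0
      have h1 := abs_avg_sub_le (f := f) hC n k x
      have h2 : |avg f n 0 x - limAvg f C x| ≤
          sn⁻¹ / 2 + sn / 2 * (avg f n 0 x - limAvg f C x) ^ 2 := by
        have h := mul_nonneg (half_pos hsn).le
          (sq_nonneg (|avg f n 0 x - limAvg f C x| - sn⁻¹))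
        have h' : sn / 2 * (|avg f n 0 x - limAvg f C x| - sn⁻¹) ^ 2 =
            sn / 2 * (avg f n 0 x - limAvg f C x) ^ 2 - |avg f n 0 x - limAvg f C x| +
              sn⁻¹ / 2 := by
          rw [← sq_abs (avg f n 0 x - limAvg f C x)]
          field_simp
          ring
        linarith
      have := abs_sub_le (avg f n k x) (avg f n 0 x) (limAvg f C x)
      rw [abs_sub_comm] at h1
      linarith
    · simp only [Pi.add_apply]
      rw [integral_const_mul, integral_add (integrable_const _) (hsq.const_mul _), integral_const,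
        probReal_univ, one_smul, integral_const_mul]
      refine mul_le_mul_of_nonneg_left ?_ hB0
      have h := mul_le_mul_of_nonneg_left (integral_sq_limAvg_le hμ hf hC hC0 hn) (half_pos hsn).le
      have h' : sn / 2 * (c / n) = c / 2 * sn⁻¹ := by
        have : sn * sn = n := Real.mul_self_sqrt hn0.le
        field_simp
        linear_combination c * this
      linarith
  have hlim : Tendsto (fun n : ℕ => B * (2 * k * C / n + (c + 1) / 2 * (√n)⁻¹)) atTop (𝓝 0) := by
    have h1 := tendsto_const_div_atTop_nhds_zero_nat (2 * (k : ℝ) * C)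
    have h2 : Tendsto (fun n : ℕ => (√(n : ℝ))⁻¹) atTop (𝓝 0) :=
      tendsto_inv_atTop_zero.comp (Real.tendsto_sqrt_atTop.comp tendsto_natCast_atTop_atTop)
    simpa using (h1.add (h2.const_mul ((c + 1) / 2))).const_mul B
  refine sub_eq_zero.1 (abs_nonpos_iff.1 (ge_of_tendsto hlim ?_))
  exact (eventually_ge_atTop 1).mono key

omit [IsProbabilityMeasure μ] in
theorem measurable_integral_of {α : Type*} {mα : MeasurableSpace α} {κ : α → Measure S}
    [∀ a, IsProbabilityMeasure (κ a)] (hf : Measurable f) (hκ : Measurable κ) :
    Measurable fun a => ∫ s, f s ∂κ a := by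
  have : IsMarkovKernel (⟨κ, hκ⟩ : Kernel α S) :=
    ⟨fun a => inferInstanceAs (IsProbabilityMeasure (κ a))⟩
  exact (hf.stronglyMeasurable.integral_kernel (κ := (⟨κ, hκ⟩ : Kernel α S))).measurable

variable [StandardBorelSpace S] (μ)

/-- The conditional law of the first coordinate given the tail. -/
def tailLaw (x : ℕ → S) : Measure S :=
  (condExpKernel μ tailField x).map fun y => y 0

theorem measurable_tailLaw : Measurable[tailField] (tailLaw μ) :=
  Measurable.comp (Measure.measurable_map _ (measurable_pi_apply 0))
    (condExpKernel μ tailField).measurable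

instance (x : ℕ → S) : IsProbabilityMeasure (tailLaw μ x) := by
  have := nonempty_of_isProbabilityMeasure μ
  exact Measure.isProbabilityMeasure_map (measurable_pi_apply 0).aemeasurable

theorem measurable_integral_tailLaw (hf : Measurable f) :
    Measurable[tailField] fun x => ∫ s, f s ∂tailLaw μ x :=
  measurable_integral_of (mα := tailField) hf (measurable_tailLaw μ)

variable {μ}

theorem abs_integral_tailLaw_le (hC : ∀ s, |f s| ≤ C) (x : ℕ → S) :
    |∫ s, f s ∂tailLaw μ x| ≤ C := by
  simpa using norm_integral_le_of_norm_le_const (μ := tailLaw μ x) (f := f) (C := C)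
    (Eventually.of_forall fun s => by simpa using hC s)

/-- The limit of the averages is the conditional mean. -/
theorem limAvg_ae_eq (hμ : Exchangeable μ) (hf : Measurable f) (hC : ∀ s, |f s| ≤ C) (hC0 : 0 ≤ C) :
    limAvg f C =ᵐ[μ] fun x => ∫ s, f s ∂tailLaw μ x := by
  classical
  have hm := tailField_le (S := S)
  have hfm : Measurable fun x : ℕ → S => f (x 0) := hf.comp (measurable_pi_apply 0)
  have hLt : Measurable[tailField] (limAvg f C : (ℕ → S) → ℝ) := measurable_limAvg hf hC
  have h1 : limAvg f C =ᵐ[μ] μ[fun x => f (x 0) | tailField] := by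
    refine ae_eq_condExp_of_forall_setIntegral_eq hm (integrable_of_bound hfm fun x => hC _)
      (fun s _ _ => (integrable_of_bound (hLt.mono hm le_rfl) (abs_limAvg_le hC0)).integrableOn)
      (fun s hs _ => ?_) hLt.stronglyMeasurable.aestronglyMeasurable
    have key := integral_mul_limAvg hμ hf hC hC0 0 (W := s.indicator fun _ => (1 : ℝ))
      ((measurable_const.indicator (hm s hs))) (B := 1)
      (fun x => by rw [Set.indicator_apply]; split_ifs <;> simp) fun j _ x => by
        have h := mem_iff_of_tail hs (x := fun i => x (Equiv.swap 0 j i)) (y := x) (k := j + 1)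
          fun i hi => by rw [Equiv.swap_apply_of_ne_of_ne (by omega) (by omega)]
        by_cases hx : x ∈ s <;> simp [Set.indicator, h, hx]
    rw [← integral_indicator (hm s hs), ← integral_indicator (hm s hs)]
    refine ((integral_congr_ae (Eventually.of_forall fun x => ?_)).trans key.symm).trans
      (integral_congr_ae (Eventually.of_forall fun x => ?_))
    all_goals by_cases hx : x ∈ s <;> simp [Set.indicator, hx]
  refine h1.trans ((condExp_ae_eq_integral_condExpKernel hm
    (integrable_of_bound hfm fun x => hC _)).trans (Eventually.of_forall fun x => ?_))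
  exact (integral_map (measurable_pi_apply 0).aemeasurable hf.aestronglyMeasurable).symm

/-- **Given the tail the coordinates are independent with one law.** -/
theorem integral_prod_eq (hμ : Exchangeable μ) (f : ℕ → S → ℝ) (hf : ∀ i, Measurable (f i))
    (hC : ∀ i s, |f i s| ≤ 1) (n : ℕ) :
    ∀ G : (ℕ → S) → ℝ, Measurable[tailField] G → (∀ x, |G x| ≤ 1) →
      ∫ x, G x * ∏ i ∈ range n, f i (x i) ∂μ =
        ∫ x, G x * ∏ i ∈ range n, ∫ s, f i s ∂tailLaw μ x ∂μ := by
  induction n with
  | zero => intro G _ _; simp
  | succ n ih =>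
    intro G hG hG1
    have hprod : ∀ x : ℕ → S, |∏ i ∈ range n, f i (x i)| ≤ 1 := fun x => by
      rw [Finset.abs_prod]
      exact Finset.prod_le_one (fun i _ => abs_nonneg _) fun i _ => hC i _
    have key := integral_mul_limAvg hμ (hf n) (hC n) zero_le_one n
      (W := fun x => G x * ∏ i ∈ range n, f i (x i))
      ((hG.mono tailField_le le_rfl).mul
        (Finset.measurable_prod _ fun i _ => (hf i).comp (measurable_pi_apply i))) (B := 1)
      (fun x => by
        rw [abs_mul]
        exact mul_le_one₀ (hG1 x) (abs_nonneg _) (hprod x))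
      (fun j hj x => by
        have e1 : G (fun i => x (Equiv.swap n j i)) = G x := eq_of_tail hG (k := j + 1) fun i hi =>
          by rw [Equiv.swap_apply_of_ne_of_ne (by omega) (by omega)]
        have e2 : ∀ i ∈ range n, f i (x (Equiv.swap n j i)) = f i (x i) := fun i hi => by
          have := mem_range.1 hi
          rw [Equiv.swap_apply_of_ne_of_ne (by omega) (by omega)]
        show G (fun i => x (Equiv.swap n j i)) * ∏ i ∈ range n, f i (x (Equiv.swap n j i)) = _
        rw [e1, Finset.prod_congr rfl e2])
    have hG' := ih (fun x => G x * ∫ s, f n s ∂tailLaw μ x)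
      (hG.mul (measurable_integral_tailLaw μ (hf n))) fun x => by
        rw [abs_mul]
        exact mul_le_one₀ (hG1 x) (abs_nonneg _) (abs_integral_tailLaw_le (hC n) x)
    simp only [prod_range_succ, ← mul_assoc]
    rw [key]
    refine ((integral_congr_ae ?_).trans hG').trans (integral_congr_ae ?_)
    · filter_upwards [limAvg_ae_eq hμ (hf n) (hC n) zero_le_one] with x hx
      rw [hx]
      ring
    · exact Eventually.of_forall fun x => by ring

/-- The mixture of the powers of the tail law. -/
def mixture (μ : Measure (ℕ → S)) [IsProbabilityMeasure μ] : Measure (ℕ → S) :=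
  μ.bind fun x => Measure.infinitePi fun _ => tailLaw μ x

omit [StandardBorelSpace S] in
theorem measurable_infinitePi {α : Type*} [MeasurableSpace α] {κ : α → Measure S}
    [∀ a, IsProbabilityMeasure (κ a)] (hκ : Measurable κ) :
    Measurable fun a => Measure.infinitePi fun _ : ℕ => κ a := by
  refine Measurable.measure_of_isPiSystem_of_isProbabilityMeasure
    generateFrom_squareCylinders.symm
    (isPiSystem_squareCylinders (fun _ => MeasurableSpace.isPiSystem_measurableSet)
      fun _ => MeasurableSet.univ) ?_
  rintro _ ⟨s, t, ht, rfl⟩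
  simp only [Set.mem_univ_pi, Set.mem_ofPred_eq] at ht
  simp only [Measure.infinitePi_pi _ fun i _ => ht i]
  exact Finset.measurable_prod _ fun i _ => (Measure.measurable_coe (ht i)).comp hκ

/-- **De Finetti's theorem.** -/
theorem eq_mixture (hμ : Exchangeable μ) : μ = mixture μ := by
  have hκ : Measurable (tailLaw μ) := (measurable_tailLaw μ).mono tailField_le le_rfl
  have hK := measurable_infinitePi hκ
  have hpr : IsProbabilityMeasure (mixture μ) :=
    ⟨by rw [mixture, Measure.bind_apply MeasurableSet.univ hK.aemeasurable]; simp⟩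
  refine ext_of_generate_finite _ generateFrom_squareCylinders.symm
    (isPiSystem_squareCylinders (fun _ => MeasurableSpace.isPiSystem_measurableSet)
      fun _ => MeasurableSet.univ) ?_
    (by simp)
  rintro _ ⟨s, t, ht, rfl⟩
  simp only [Set.mem_univ_pi, Set.mem_ofPred_eq] at ht
  classical
  set n := s.sup id + 1
  have hsn : s ⊆ range n := fun i hi => mem_range.2 (Nat.lt_succ_of_le (le_sup (f := id) hi))
  set t' : ℕ → Set S := fun i => if i ∈ s then t i else Set.univ
  have ht' : ∀ i, MeasurableSet (t' i) := fun i => by
    simp only [t']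
    split_ifs
    exacts [ht i, MeasurableSet.univ]
  have e1 : ∀ x : ℕ → S, ((s : Set ℕ).pi t).indicator (fun _ => (1 : ℝ)) x =
      ∏ i ∈ range n, (t' i).indicator (fun _ => (1 : ℝ)) (x i) := fun x => by
    by_cases hx : x ∈ (s : Set ℕ).pi t
    · rw [Set.indicator_of_mem hx, Finset.prod_eq_one fun i _ => ?_]
      refine Set.indicator_of_mem ?_ _
      simp only [t']
      split_ifs with h
      exacts [hx i h, Set.mem_univ _]
    · rw [Set.indicator_of_notMem hx]
      simp only [Set.mem_pi, not_forall] at hx
      obtain ⟨i, hi, hxi⟩ := hx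
      refine (Finset.prod_eq_zero
        (f := fun i => (t' i).indicator (fun _ => (1 : ℝ)) (x i)) (hsn hi) ?_).symm
      simp [t', Finset.mem_coe.1 hi, hxi]
  have key := integral_prod_eq hμ (fun i => (t' i).indicator fun _ => 1)
    (fun i => measurable_const.indicator (ht' i))
    (fun i s => by rw [Set.indicator_apply]; split_ifs <;> simp) n (fun _ => 1)
    measurable_const (fun _ => by simp)
  simp only [one_mul, ← e1, integral_indicator_const _ (ht' _), smul_eq_mul, mul_one] at key
  have hmeas : MeasurableSet ((s : Set ℕ).pi t) := .pi s.countable_toSet fun i _ => ht i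
  rw [integral_indicator_const _ hmeas, smul_eq_mul, mul_one] at key
  rw [← ofReal_measureReal (measure_ne_top μ _), key, mixture,
    Measure.bind_apply hmeas hK.aemeasurable]
  simp only [Measure.infinitePi_pi _ fun i _ => ht i]
  rw [ofReal_integral_eq_lintegral_ofReal]
  · refine lintegral_congr fun x => ?_
    rw [ENNReal.ofReal_prod_of_nonneg fun i _ => measureReal_nonneg,
      ← prod_subset hsn fun i _ hi => ?_]
    · refine Finset.prod_congr rfl fun i hi => ?_
      rw [ofReal_measureReal (measure_ne_top _ _)]
      simp [t', hi]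
    · rw [ofReal_measureReal (measure_ne_top _ _)]
      simp [t', hi]
  · refine integrable_of_bound (Finset.measurable_prod _ fun i _ =>
      ((Measure.measurable_coe (ht' i)).comp hκ).ennreal_toReal) (C := 1) fun x => ?_
    rw [Finset.abs_prod]
    exact Finset.prod_le_one (fun i _ => abs_nonneg _) fun i _ => by
      rw [abs_of_nonneg measureReal_nonneg]
      exact measureReal_le_one
  · exact Eventually.of_forall fun x => Finset.prod_nonneg fun i _ => measureReal_nonneg

omit [StandardBorelSpace S] in
/-- **Mixtures of powers are exchangeable.** -/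
theorem exchangeable_bind {α : Type*} [MeasurableSpace α] (ρ : Measure α) {κ : α → Measure S}
    [∀ a, IsProbabilityMeasure (κ a)] (hκ : Measurable κ) :
    Exchangeable (ρ.bind fun a => Measure.infinitePi fun _ : ℕ => κ a) := by
  intro σ _
  have hσ : Measurable fun (x : ℕ → S) i => x (σ i) :=
    measurable_pi_lambda _ fun i => measurable_pi_apply (σ i)
  refine Measure.ext fun s hs => ?_
  rw [Measure.map_apply hσ hs, Measure.bind_apply (hσ hs) (measurable_infinitePi hκ).aemeasurable,
    Measure.bind_apply hs (measurable_infinitePi hκ).aemeasurable]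
  refine lintegral_congr fun a => ?_
  rw [← Measure.map_apply hσ hs]
  congr 1
  refine Measure.eq_infinitePi _ fun u t ht => ?_
  have e : (fun (x : ℕ → S) i => x (σ i)) ⁻¹' ((u : Set ℕ).pi t) =
      (↑(u.map σ.toEmbedding) : Set ℕ).pi fun j => t (σ.symm j) := by
    ext x
    simp only [Set.mem_preimage, Set.mem_pi, Finset.mem_coe, Finset.mem_map_equiv]
    exact ⟨fun h j hj => by simpa using h _ hj,
      fun h i hi => by simpa using h (σ i) (by simpa using hi)⟩
  rw [Measure.map_apply hσ (.pi u.countable_toSet fun i _ => ht i), e,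
    Measure.infinitePi_pi _ fun i _ => ht _, Finset.prod_map]
  simp

end FA.DeFinetti
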